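import Fermat.Agent.RittDecomposition.Cycle
import Mathlib.FieldTheory.IsAlgClosed.AlgebraicClosure
import Mathlib.RingTheory.RootsOfUnity.AlgebraicallyClosed
import Mathlib.RingTheory.PowerSeries.NoZeroDivisors
import Mathlib.RingTheory.AdicCompletion.Completeness
import Mathlib.RingTheory.Henselian

/-!
# The cycle at infinity

In characteristic zero `f(X) = s⁻ⁿ` is solved by a Puiseux series `v(s) / s`, and `s ↦ ζ s`
permutes the `n` solutions cyclically.
-/

set_option autoImplicit false

noncomputable section

open Polynomial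

namespace Fermat.Agent.RittDecomposition

variable {K : Type*} [Field K] [CharZero K]

/-- The field containing the solutions at infinity. -/
abbrev SeriesField (K : Type*) [Field K] : Type _ :=
  FractionRing (PowerSeries (AlgebraicClosure K))

theorem exists_series (f : K[X]) (hn : 0 < f.natDegree) :
    ∃ v : PowerSeries (AlgebraicClosure K), PowerSeries.constantCoeff v ≠ 0 ∧
      ∑ i ∈ Finset.range (f.natDegree + 1), PowerSeries.C (algebraMap K _ (f.coeff i)) *
        (v ^ i * PowerSeries.X ^ (f.natDegree - i)) = 1 := by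
  set n := f.natDegree with hn'
  set L := AlgebraicClosure K
  have ha : algebraMap K L f.leadingCoeff ≠ 0 :=
    (map_ne_zero (algebraMap K L)).2 (leadingCoeff_ne_zero.2 fun e => by simp [e, hn'] at hn)
  set a := algebraMap K L f.leadingCoeff with ha'
  obtain ⟨z, hz⟩ := IsAlgClosed.exists_pow_nat_eq a⁻¹ hn
  have hz0 : z ≠ 0 := by
    rintro rfl
    rw [zero_pow hn.ne'] at hz
    exact inv_ne_zero ha hz.symm
  set b : ℕ → PowerSeries L := fun i =>
    PowerSeries.C (a⁻¹ * algebraMap K L (f.coeff i)) * PowerSeries.X ^ (n - i) with hb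
  set R : (PowerSeries L)[X] := (∑ i ∈ Finset.range n, C (b i) * X ^ i) - C (PowerSeries.C a⁻¹)
  have hR : R.degree < n := by
    refine lt_of_le_of_lt (degree_sub_le _ _) (max_lt ?_ ?_)
    · refine lt_of_le_of_lt (degree_sum_le _ _) ((Finset.sup_lt_iff (WithBot.bot_lt_coe n)).2 ?_)
      intro i hi
      exact (degree_C_mul_X_pow_le _ _).trans_lt (WithBot.coe_lt_coe.2 (Finset.mem_range.1 hi))
    · exact degree_C_le.trans_lt (by exact_mod_cast hn)
  have hbc : ∀ i < n, PowerSeries.constantCoeff (b i) = 0 := fun i hi => by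
    simp [hb, Nat.sub_ne_zero_of_lt hi]
  have hmem : ∀ w : PowerSeries L, PowerSeries.constantCoeff w = 0 ↔
      w ∈ Ideal.span ({PowerSeries.X} : Set (PowerSeries L)) := fun w => by
    rw [Ideal.mem_span_singleton, PowerSeries.X_dvd_iff]
  have hev : (X ^ n + R).eval (PowerSeries.C z) ∈
      Ideal.span ({PowerSeries.X} : Set (PowerSeries L)) := by
    rw [← hmem]
    simp only [R, eval_add, eval_pow, eval_X, eval_sub, eval_finsetSum, eval_mul, eval_C, map_add,
      map_pow, map_sub, map_sum, map_mul, PowerSeries.constantCoeff_C]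
    rw [Finset.sum_eq_zero fun i hi => by rw [hbc i (Finset.mem_range.1 hi), zero_mul], hz]
    ring
  have hder : IsUnit (Ideal.Quotient.mk (Ideal.span ({PowerSeries.X} : Set (PowerSeries L)))
      ((X ^ n + R).derivative.eval (PowerSeries.C z))) := by
    refine IsUnit.map _ (PowerSeries.isUnit_iff_constantCoeff.2 (Ne.isUnit ?_))
    simp only [R, map_add, map_sub, map_sum, derivative_C_mul_X_pow, derivative_X_pow,
      derivative_C, sub_zero, eval_add, eval_mul, eval_pow, eval_X, eval_C, eval_finsetSum,
      map_pow, map_mul, map_natCast, eval_natCast, PowerSeries.constantCoeff_C]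
    rw [Finset.sum_eq_zero fun i hi => by rw [hbc i (Finset.mem_range.1 hi), zero_mul, zero_mul],
      add_zero]
    exact mul_ne_zero (Nat.cast_ne_zero.2 hn.ne') (pow_ne_zero _ hz0)
  obtain ⟨v, hv, hvz⟩ := HenselianRing.is_henselian (X ^ n + R) (monic_X_pow_add hR)
    (PowerSeries.C z) hev hder
  refine ⟨v, ?_, ?_⟩
  · rw [← hmem, map_sub, PowerSeries.constantCoeff_C, sub_eq_zero] at hvz
    rw [hvz]
    exact hz0
  · simp only [IsRoot, R, eval_add, eval_pow, eval_X, eval_sub, eval_finsetSum, eval_mul,
      eval_C] at hv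
    rw [Finset.sum_range_succ, Nat.sub_self, pow_zero, mul_one]
    have e : ∀ i, PowerSeries.C (algebraMap K L (f.coeff i)) * (v ^ i * PowerSeries.X ^ (n - i)) =
        PowerSeries.C a * (b i * v ^ i) := fun i => by
      simp only [hb, map_mul]
      rw [← mul_assoc (PowerSeries.C a), ← mul_assoc (PowerSeries.C a),
        ← mul_assoc (PowerSeries.C a),
        ← map_mul, mul_inv_cancel₀ ha, map_one, one_mul]
      ring
    rw [Finset.sum_congr rfl fun i _ => e i, ← Finset.mul_sum,
      show f.coeff n = f.leadingCoeff from rfl, ← ha', ← mul_add]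
    rw [show ∑ i ∈ Finset.range n, b i * v ^ i + v ^ n = PowerSeries.C a⁻¹ by linear_combination hv,
      ← map_mul, mul_inv_cancel₀ ha, map_one]

/-- Substitution of `ζ s` for `s`, on power series. -/
def rescaleHom (ζ : AlgebraicClosure K) :
    PowerSeries (AlgebraicClosure K) →ₐ[K] PowerSeries (AlgebraicClosure K) :=
  { toRingHom := PowerSeries.rescale ζ
    commutes' := fun r => by
      ext m
      rcases m with _ | m <;>
        simp [PowerSeries.coeff_rescale, PowerSeries.algebraMap_apply, PowerSeries.coeff_C] }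

/-- The same substitution, into the field. -/
def rescaleToField (ζ : AlgebraicClosure K) :
    PowerSeries (AlgebraicClosure K) →ₐ[K] SeriesField K :=
  (IsScalarTower.toAlgHom K (PowerSeries (AlgebraicClosure K)) (SeriesField K)).comp (rescaleHom ζ)

omit [CharZero K] in
theorem rescaleToField_apply (ζ : AlgebraicClosure K) (w : PowerSeries (AlgebraicClosure K)) :
    rescaleToField ζ w = algebraMap _ (SeriesField K) (PowerSeries.rescale ζ w) :=
  rfl

omit [CharZero K] in
theorem rescaleToField_injective {ζ : AlgebraicClosure K} (hζ : ζ ≠ 0) :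
    Function.Injective (rescaleToField ζ) := fun a b h => by
  rw [rescaleToField_apply, rescaleToField_apply] at h
  exact PowerSeries.rescale_injective hζ (IsFractionRing.injective _ (SeriesField K) h)

/-- Substitution of `ζ s` for `s`. -/
def rotate (ζ : AlgebraicClosure K) (hζ : ζ ≠ 0) : SeriesField K →ₐ[K] SeriesField K :=
  IsFractionRing.liftAlgHom (rescaleToField_injective hζ)

omit [CharZero K] in
theorem rotate_algebraMap (ζ : AlgebraicClosure K) (hζ : ζ ≠ 0)
    (w : PowerSeries (AlgebraicClosure K)) :
    rotate ζ hζ (algebraMap _ (SeriesField K) w) =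
      algebraMap _ (SeriesField K) (PowerSeries.rescale ζ w) := by
  rw [rotate, IsFractionRing.liftAlgHom_apply, IsFractionRing.lift_algebraMap]
  exact rescaleToField_apply ζ w

omit [CharZero K] in
theorem rescale_C_eq (a b : AlgebraicClosure K) :
    PowerSeries.rescale a (PowerSeries.C b) = PowerSeries.C b := by
  ext m
  rcases m with _ | m <;> simp [PowerSeries.coeff_rescale, PowerSeries.coeff_C]

/-- **The monodromy cycle at infinity.** -/
theorem exists_fullCycle (f : K[X]) (hn : 0 < f.natDegree) :
    Nonempty (FullCycle f (SeriesField K)) := by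
  obtain ⟨v, hv0, hv⟩ := exists_series f hn
  set n := f.natDegree with hn'
  have : NeZero n := ⟨hn.ne'⟩
  obtain ⟨ζ, hζ⟩ := HasEnoughRootsOfUnity.exists_primitiveRoot (AlgebraicClosure K) n
  have hζ0 : ζ ≠ 0 := hζ.ne_zero hn.ne'
  set ι := algebraMap (PowerSeries (AlgebraicClosure K)) (SeriesField K) with hι
  have hinj : Function.Injective ι := IsFractionRing.injective _ _
  set s := ι PowerSeries.X
  have hs : s ≠ 0 := (map_ne_zero_iff ι hinj).2 PowerSeries.X_ne_zero
  set x := ι v / s with hx
  set τ := rotate ζ hζ0 with hτ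
  have hval : aeval x f = (s ^ n)⁻¹ := by
    refine eq_inv_of_mul_eq_one_left ?_
    rw [aeval_eq_sum_range, Finset.sum_mul, ← map_one ι, ← hv, map_sum]
    refine Finset.sum_congr rfl fun i hi => ?_
    rw [Algebra.smul_def, map_mul, map_mul, map_pow, map_pow,
      IsScalarTower.algebraMap_apply K (PowerSeries (AlgebraicClosure K)) (SeriesField K),
      PowerSeries.algebraMap_apply, hx, div_pow, ← hι, mul_assoc]
    congr 1
    rw [← Nat.add_sub_cancel' (Nat.le_of_lt_succ (Finset.mem_range.1 hi)), pow_add s,
      Nat.add_sub_cancel_left, ← mul_assoc, div_mul_cancel₀ _ (pow_ne_zero _ hs)]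
  have hiter : ∀ i, τ^[i] x = ι (PowerSeries.rescale (ζ ^ i) v) /
      ι (PowerSeries.C (ζ ^ i) * PowerSeries.X) := by
    intro i
    induction i with
    | zero => simp [hx, s]
    | succ i ih =>
      rw [Function.iterate_succ_apply', ih, map_div₀, hτ, hι, rotate_algebraMap, rotate_algebraMap,
        PowerSeries.rescale_rescale, ← pow_succ, map_mul, PowerSeries.rescale_X, rescale_C_eq,
        ← mul_assoc, ← map_mul, ← pow_succ]
  refine ⟨⟨x, τ, fun p q hpq => ?_, ?_, ?_, ?_⟩⟩
  · by_contra hne
    have halg : IsAlgebraic K x := ⟨p - q, sub_ne_zero.2 hne, by rw [map_sub, hpq, sub_self]⟩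
    have h2 : IsAlgebraic K (aeval x f) := by
      have hle : Algebra.adjoin K ({x} : Set (SeriesField K)) ≤ integralClosure K (SeriesField K) :=
        Algebra.adjoin_le (Set.singleton_subset_iff.2 halg.isIntegral)
      exact IsIntegral.isAlgebraic (hle (aeval_mem_adjoin_singleton K x))
    rw [hval, ← map_pow] at h2
    have h3 : IsAlgebraic K (PowerSeries.X ^ n : PowerSeries (AlgebraicClosure K)) := by
      rw [← isAlgebraic_algebraMap_iff (A := SeriesField K) hinj]
      simpa using h2.inv
    have h4 := IsIntegral.isUnit h3.isIntegral (pow_ne_zero _ PowerSeries.X_ne_zero)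
    rw [PowerSeries.isUnit_iff_constantCoeff] at h4
    simp [hn.ne'] at h4
  · rw [aeval_algHom_apply, hval, map_inv₀, map_pow, hτ]
    congr 1
    show (rotate ζ hζ0 (ι PowerSeries.X)) ^ n = ι PowerSeries.X ^ n
    rw [hι, rotate_algebraMap, PowerSeries.rescale_X, map_mul, mul_pow, ← map_pow, ← map_pow,
      hζ.pow_eq_one, map_one, map_one, one_mul]
  · rw [hiter, hζ.pow_eq_one, PowerSeries.rescale_one, RingHom.id_apply, map_one, one_mul]
  · intro i hi j hj e
    rw [hiter, hiter, div_eq_div_iff] at e
    · rw [← map_mul, ← map_mul, ← mul_assoc, ← mul_assoc] at e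
      have e' := mul_right_cancel₀ PowerSeries.X_ne_zero (hinj e)
      have := congrArg PowerSeries.constantCoeff e'
      have hc : ∀ a : AlgebraicClosure K,
          PowerSeries.constantCoeff (PowerSeries.rescale a v) = PowerSeries.constantCoeff v := by
        intro a
        rw [← PowerSeries.coeff_zero_eq_constantCoeff_apply, PowerSeries.coeff_rescale, pow_zero,
          one_mul, PowerSeries.coeff_zero_eq_constantCoeff_apply]
      rw [map_mul, map_mul, hc, hc, PowerSeries.constantCoeff_C,
        PowerSeries.constantCoeff_C] at this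
      exact hζ.pow_inj hi hj (mul_left_cancel₀ hv0 this).symm
    all_goals
      refine (map_ne_zero_iff ι hinj).2 (mul_ne_zero ?_ PowerSeries.X_ne_zero)
      exact (map_ne_zero_iff _ PowerSeries.C_injective).2 (pow_ne_zero _ hζ0)

end Fermat.Agent.RittDecomposition
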