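import Mathlib.Algebra.Polynomial.FieldDivision
import Mathlib.Algebra.Polynomial.Splits
import Mathlib.Algebra.Polynomial.Bivariate
import Mathlib.RingTheory.Polynomial.GaussLemma
import Mathlib.RingTheory.Polynomial.RationalRoot
import Mathlib.RingTheory.Localization.FractionRing
import Mathlib.Dynamics.PeriodicPts.Defs
import Mathlib.LinearAlgebra.Basis.VectorSpace

/-!
# Right components read off from a full monodromy cycle

If an automorphism permutes the roots of `f(X) = f(x₀)` cyclically, right components of `f`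
correspond to divisors of the degree; this gives Engstrom's theorem.
-/

set_option autoImplicit false

noncomputable section

open Polynomial

namespace Fermat.Agent.RittDecomposition

variable {K : Type*} [Field K] {S : Type*} [Field S] [Algebra K S]

/-- An automorphism with a cycle of length `deg f` on the roots of `f(X) = f(x₀)`. -/
structure FullCycle (f : K[X]) (S : Type*) [Field S] [Algebra K S] where
  x₀ : S
  τ : S →ₐ[K] S
  inj : Function.Injective (aeval x₀ : K[X] → S)
  fix : aeval (τ x₀) f = aeval x₀ f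
  per : τ^[f.natDegree] x₀ = x₀
  distinct : ∀ i < f.natDegree, ∀ j < f.natDegree, τ^[i] x₀ = τ^[j] x₀ → i = j

theorem aeval_iterate (τ : S →ₐ[K] S) (p : K[X]) (x : S) (i : ℕ) :
    aeval (τ^[i] x) p = τ^[i] (aeval x p) := by
  induction i generalizing x with
  | zero => rfl
  | succ i ih => rw [Function.iterate_succ_apply, Function.iterate_succ_apply, ih,
      aeval_algHom_apply]

variable {f : K[X]}

namespace FullCycle

variable (c : FullCycle f S)

/-- The value of a polynomial at the `i`th root. -/
def val (p : K[X]) (i : ℕ) : S := aeval (c.τ^[i] c.x₀) p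

theorem val_eq (p : K[X]) (i : ℕ) : c.val p i = c.τ^[i] (c.val p 0) :=
  aeval_iterate _ _ _ _

/-- Being constant on the multiples of `d`. -/
def Inv (p : K[X]) (d : ℕ) : Prop := Function.IsPeriodicPt c.τ d (c.val p 0)

theorem val_eq_iff_inv (p : K[X]) (d : ℕ) : c.val p d = c.val p 0 ↔ c.Inv p d := by
  rw [c.val_eq p d]; rfl

theorem inv_f : c.Inv f 1 := by
  rw [← c.val_eq_iff_inv]; exact c.fix

theorem val_of_dvd {p : K[X]} {d i : ℕ} (h : c.Inv p d) (hi : d ∣ i) : c.val p i = c.val p 0 :=
  (c.val_eq_iff_inv p i).2 (h.trans_dvd hi)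

/-- The roots with index a multiple of `d`. -/
def orbit (d : ℕ) : Finset S :=
  haveI := Classical.decEq S
  (Finset.range (f.natDegree / d)).image fun j => c.τ^[d * j] c.x₀

theorem card_orbit {d : ℕ} (hd : d ∣ f.natDegree) :
    (c.orbit d).card = f.natDegree / d := by
  classical
  rw [orbit, Finset.card_image_of_injOn, Finset.card_range]
  intro i hi j hj h
  simp only [Finset.coe_range, Set.mem_Iio] at hi hj
  have hb : ∀ t, t < f.natDegree / d → 0 < d ∧ d * t < f.natDegree := fun t ht => by
    obtain ⟨e, he⟩ := hd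
    have hd0 : 0 < d := Nat.pos_of_ne_zero fun e0 => by simp [e0] at ht
    rw [he, Nat.mul_div_cancel_left _ hd0] at ht
    exact ⟨hd0, he ▸ Nat.mul_lt_mul_of_pos_left ht hd0⟩
  exact Nat.eq_of_mul_eq_mul_left (hb i hi).1 (c.distinct _ (hb i hi).2 _ (hb j hj).2 h)

theorem mem_orbit {d y} (h : y ∈ c.orbit d) : ∃ i, d ∣ i ∧ y = c.τ^[i] c.x₀ := by
  classical
  obtain ⟨j, -, rfl⟩ := Finset.mem_image.1 h
  exact ⟨d * j, dvd_mul_right d j, rfl⟩

theorem mem_orbit_of_dvd {d i : ℕ} (hd : d ∣ f.natDegree) (hn : 0 < f.natDegree) (hi : d ∣ i) :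
    c.τ^[i] c.x₀ ∈ c.orbit d := by
  classical
  obtain ⟨j, rfl⟩ := hi
  obtain ⟨e, he⟩ := hd
  have hd0 : 0 < d := Nat.pos_of_ne_zero fun e0 => by simp [e0] at he; omega
  have he0 : 0 < e := Nat.pos_of_ne_zero fun e0 => by simp [e0] at he; omega
  refine Finset.mem_image.2 ⟨j % e, Finset.mem_range.2 ?_, ?_⟩
  · rw [he, Nat.mul_div_cancel_left _ hd0]; exact Nat.mod_lt _ he0
  · have hp : Function.IsPeriodicPt c.τ (f.natDegree * (j / e)) c.x₀ :=
      Function.IsPeriodicPt.mul_const c.per _
    conv_rhs => rw [← Nat.mod_add_div j e, Nat.mul_add, ← mul_assoc, ← he,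
      Function.iterate_add_apply, hp.eq]

theorem aeval_orbit {p : K[X]} {d : ℕ} (hp : c.Inv p d) {y : S} (hy : y ∈ c.orbit d) :
    aeval y p = c.val p 0 := by
  obtain ⟨i, hi, rfl⟩ := c.mem_orbit hy
  exact c.val_of_dvd hp hi

/-- An invariant polynomial of small degree is a constant. -/
theorem natDegree_eq_zero_of_inv {p : K[X]} {d : ℕ} (hd : d ∣ f.natDegree) (hp : c.Inv p d)
    (hlt : p.natDegree < f.natDegree / d) : p.natDegree = 0 := by
  have h : p.map (algebraMap K S) - C (c.val p 0) = 0 := by
    refine eq_zero_of_natDegree_lt_card_of_eval_eq_zero' _ (c.orbit d) (fun y hy => ?_) ?_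
    · rw [eval_sub, eval_C, eval_map_algebraMap, c.aeval_orbit hp hy, sub_self]
    · rw [c.card_orbit hd, natDegree_sub_C, natDegree_map]
      exact hlt
  rw [← natDegree_map (algebraMap K S), sub_eq_zero.1 h, natDegree_C]

/-- Expansion in powers of `u`. -/
theorem exists_expansion {u : K[X]} (hu : 0 < u.natDegree) (p : K[X]) :
    ∃ a : ℕ → K[X], p = ∑ i ∈ Finset.range u.natDegree, (a i).comp u * X ^ i := by
  induction hp : p.natDegree using Nat.strong_induction_on generalizing p with
  | _ N ih =>
    by_cases hlt : p.natDegree < u.natDegree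
    · refine ⟨fun i => C (p.coeff i), ?_⟩
      simp only [C_comp]
      exact p.as_sum_range_C_mul_X_pow' hlt
    · have hp0 : p ≠ 0 := fun e => hlt (by rw [e, natDegree_zero]; exact hu)
      have hq : (p / u).natDegree < N := by
        rw [← hp]
        rcases eq_or_ne (p / u) 0 with e | e
        · rw [e, natDegree_zero]; omega
        · exact natDegree_lt_natDegree e (degree_div_lt hp0 (natDegree_pos_iff_degree_pos.1 hu))
      have hr : (p % u).natDegree < u.natDegree := natDegree_mod_lt p hu.ne'
      obtain ⟨a, ha⟩ := ih _ hq (p / u) rfl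
      refine ⟨fun i => X * a i + C ((p % u).coeff i), ?_⟩
      simp only [add_comp, mul_comp, X_comp, C_comp, add_mul, Finset.sum_add_distrib, mul_assoc]
      rw [← Finset.mul_sum, ← ha, ← (p % u).as_sum_range_C_mul_X_pow' hr,
        EuclideanDomain.div_add_mod]

/-- **Criterion**: invariants are the polynomials in `u`. -/
theorem exists_comp_of_inv {u p : K[X]} {d : ℕ} (hn : 0 < f.natDegree) (hd : d ∣ f.natDegree)
    (hu : c.Inv u d) (hdeg : u.natDegree = f.natDegree / d) (hp : c.Inv p d) :
    ∃ q : K[X], p = q.comp u := by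
  have hu0 : 0 < u.natDegree := by
    obtain ⟨e, he⟩ := hd
    rw [hdeg, he]
    have hd0 : 0 < d := Nat.pos_of_ne_zero fun e0 => by simp [e0] at he; omega
    rw [Nat.mul_div_cancel_left _ hd0]
    exact Nat.pos_of_ne_zero fun e0 => by simp [e0] at he; omega
  obtain ⟨a, ha⟩ := exists_expansion hu0 p
  refine ⟨a 0, ?_⟩
  set U := c.val u 0 with hU
  have key : (∑ i ∈ Finset.range u.natDegree, C (aeval U (a i)) * X ^ i : S[X]) -
      C (c.val p 0) = 0 := by
    refine eq_zero_of_natDegree_lt_card_of_eval_eq_zero' _ (c.orbit d) (fun y hy => ?_) ?_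
    · rw [eval_sub, eval_C, sub_eq_zero, ← c.aeval_orbit hp hy]
      conv_rhs => rw [ha, map_sum]
      rw [eval_finsetSum]
      refine Finset.sum_congr rfl fun i _ => ?_
      rw [eval_mul, eval_C, eval_pow, eval_X, map_mul, map_pow, aeval_X, aeval_comp,
        c.aeval_orbit hu hy]
    · rw [c.card_orbit hd, natDegree_sub_C, ← hdeg]
      refine lt_of_le_of_lt (natDegree_sum_le_of_forall_le _ _ (n := u.natDegree - 1)
        fun i hi => ?_) (by omega)
      rw [Finset.mem_range] at hi
      exact (natDegree_C_mul_X_pow_le _ _).trans (by omega)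
  have hz : ∀ i ∈ Finset.range u.natDegree, i ≠ 0 → a i = 0 := by
    intro i hi h0
    have h1 := congrArg (fun P => Polynomial.coeff P i) key
    simp only [coeff_sub, finsetSum_coeff, coeff_C_mul, coeff_X_pow, mul_ite, mul_one, mul_zero,
      Finset.sum_ite_eq, if_pos hi, coeff_C, if_neg h0, sub_zero, coeff_zero] at h1
    have h2 : (a i).comp u = 0 := c.inj (by rw [aeval_comp, map_zero]; exact h1)
    rcases comp_eq_zero_iff.1 h2 with h | ⟨-, h⟩
    · exact h
    · rw [h, natDegree_C] at hu0
      omega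
  conv_lhs => rw [ha]
  rw [Finset.sum_eq_single 0 (fun i hi h0 => by rw [hz i hi h0, zero_comp, zero_mul])
    (fun h => absurd (Finset.mem_range.2 hu0) h), pow_zero, mul_one]

/-- A polynomial of degree `d` vanishing on an orbit of size `d` is the product over it. -/
theorem eq_C_mul_prod {P : S[X]} {s : Finset S} (hdeg : P.natDegree ≤ s.card)
    (hs : ∀ y ∈ s, P.eval y = 0) : P = C (P.coeff s.card) * ∏ y ∈ s, (X - C y) := by
  classical
  rcases Nat.eq_zero_or_pos s.card with h0 | h0
  · obtain rfl := Finset.card_eq_zero.1 h0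
    rw [Finset.card_empty, Finset.prod_empty, mul_one]
    exact eq_C_of_natDegree_le_zero (by simpa using hdeg)
  refine sub_eq_zero.1 (eq_zero_of_natDegree_lt_card_of_eval_eq_zero' _ s (fun y hy => ?_) ?_)
  · rw [eval_sub, eval_mul, eval_prod, Finset.prod_eq_zero hy (by simp), mul_zero, hs y hy,
      sub_zero]
  · have hm : (∏ y ∈ s, (X - C y)).natDegree = s.card := by
      rw [natDegree_prod_of_monic _ _ fun y _ => monic_X_sub_C y]
      simp
    have hc : (∏ y ∈ s, (X - C y)).coeff s.card = 1 := by
      conv_lhs => rw [← hm]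
      exact (monic_prod_of_monic _ _ fun y _ => monic_X_sub_C y)
    refine lt_of_le_of_lt (natDegree_le_iff_coeff_eq_zero.2 (fun i hi => ?_))
      (Nat.sub_one_lt h0.ne')
    rcases eq_or_ne i s.card with rfl | hne
    · rw [coeff_sub, coeff_C_mul, hc, mul_one, sub_self]
    · have e1 : P.coeff i = 0 := coeff_eq_zero_of_natDegree_lt (by omega)
      have e2 : (∏ y ∈ s, (X - C y)).coeff i = 0 := coeff_eq_zero_of_natDegree_lt (by omega)
      rw [coeff_sub, coeff_C_mul, e1, e2, mul_zero, sub_zero]

section Component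

variable {G h : K[X]} (hf : f = G.comp h) (hn : 0 < f.natDegree)
include hf hn

/-- A right component of degree `r` takes equal values exactly on the multiples of `n / r`. -/
theorem component_inv_iff (i : ℕ) : c.Inv h i ↔ G.natDegree ∣ i := by
  classical
  have hmul : f.natDegree = G.natDegree * h.natDegree := by rw [hf, natDegree_comp]
  have hh0 : 0 < h.natDegree := by
    by_contra h0
    rw [Nat.le_zero.1 (Nat.not_lt.1 h0), mul_zero] at hmul
    omega
  set x := c.val h 0 with hx
  set d := Function.minimalPeriod c.τ x with hd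
  have hper : Function.IsPeriodicPt c.τ f.natDegree x := by
    show c.τ^[f.natDegree] x = x
    rw [hx, val, Function.iterate_zero_apply, ← aeval_iterate, c.per]
  have hd0 : 0 < d := hper.minimalPeriod_pos hn
  have hdn : d ∣ f.natDegree := hper.minimalPeriod_dvd
  have hroot : ∀ j, Polynomial.eval (c.τ^[j] x)
      (G.map (algebraMap K S) - C (c.val f 0)) = 0 := by
    intro j
    rw [eval_sub, eval_C, eval_map_algebraMap, sub_eq_zero, ← c.val_of_dvd c.inv_f (one_dvd j),
      hx, ← c.val_eq, val, val, ← aeval_comp, ← hf]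
  have hG0 : 0 < G.natDegree := Nat.pos_of_ne_zero fun e => by rw [e, zero_mul] at hmul; omega
  have hle1 : d ≤ G.natDegree := by
    by_contra hlt
    have hinj : Set.InjOn (fun j => c.τ^[j] x) (Finset.range d) := fun u hu v hv e =>
      (Function.iterate_eq_iterate_iff_of_lt_minimalPeriod (Finset.mem_range.1 hu)
        (Finset.mem_range.1 hv)).1 e
    have h0 := eq_zero_of_natDegree_lt_card_of_eval_eq_zero'
      (G.map (algebraMap K S) - C (c.val f 0)) ((Finset.range d).image fun j => c.τ^[j] x)
      (fun y hy => by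
        obtain ⟨j, -, rfl⟩ := Finset.mem_image.1 hy
        exact hroot j)
      (by rw [Finset.card_image_of_injOn hinj, Finset.card_range, natDegree_sub_C, natDegree_map]
          omega)
    have := congrArg natDegree h0
    rw [natDegree_sub_C, natDegree_map, natDegree_zero] at this
    omega
  have hle2 : f.natDegree / d ≤ h.natDegree := by
    by_contra hlt
    have := c.natDegree_eq_zero_of_inv hdn (Function.isPeriodicPt_minimalPeriod _ _)
      (Nat.not_le.1 hlt)
    omega
  have hdG : d = G.natDegree := by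
    obtain ⟨e, he⟩ := hdn
    rw [he, Nat.mul_div_cancel_left _ hd0] at hle2
    refine le_antisymm hle1 (Nat.le_of_mul_le_mul_right ?_ hh0)
    calc G.natDegree * h.natDegree = d * e := by rw [← hmul, he]
      _ ≤ d * h.natDegree := Nat.mul_le_mul_left _ hle2
  rw [← hdG]
  exact Function.isPeriodicPt_iff_minimalPeriod_dvd

end Component

/-- Invariance passes to polynomials in an invariant. -/
theorem inv_comp {q u : K[X]} {d : ℕ} (hu : c.Inv u d) : c.Inv (q.comp u) d := by
  rw [← c.val_eq_iff_inv] at hu ⊢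
  rw [val, val, aeval_comp, aeval_comp]
  exact congrArg (fun y => aeval y q) hu

section Engstrom

variable {G₁ h₁ G₂ h₂ : K[X]} (hf₁ : f = G₁.comp h₁) (hf₂ : f = G₂.comp h₂)
  (hn : 0 < f.natDegree)
include c hf₁ hf₂ hn

/-- The greatest common right component. -/
theorem exists_gcd_component :
    ∃ u a₁ a₂ : K[X], u.natDegree * Nat.lcm G₁.natDegree G₂.natDegree = f.natDegree ∧
      h₁ = a₁.comp u ∧ h₂ = a₂.comp u := by
  classical
  set l := Nat.lcm G₁.natDegree G₂.natDegree with hl
  have hm₁ : f.natDegree = G₁.natDegree * h₁.natDegree := by rw [hf₁, natDegree_comp]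
  have hm₂ : f.natDegree = G₂.natDegree * h₂.natDegree := by rw [hf₂, natDegree_comp]
  have hh₁ : 0 < h₁.natDegree := Nat.pos_of_ne_zero fun e => by rw [e, mul_zero] at hm₁; omega
  have hh₂ : 0 < h₂.natDegree := Nat.pos_of_ne_zero fun e => by rw [e, mul_zero] at hm₂; omega
  have hln : l ∣ f.natDegree :=
    Nat.lcm_dvd (Dvd.intro _ hm₁.symm) (Dvd.intro _ hm₂.symm)
  have hi₁ : c.Inv h₁ l := (c.component_inv_iff hf₁ hn l).2 (Nat.dvd_lcm_left _ _)
  have hi₂ : c.Inv h₂ l := (c.component_inv_iff hf₂ hn l).2 (Nat.dvd_lcm_right _ _)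
  set ι : K[X] →+* S := (aeval c.x₀).toRingHom with hι
  let F := FractionRing K[X]
  let κ : F →+* S := IsFractionRing.lift (g := ι) c.inj
  obtain ⟨A, hA⟩ : ∃ A : K[X] → K[X][X],
      ∀ h, A h = C (C h.leadingCoeff⁻¹) * (h.map C - C h) := ⟨_, fun h => rfl⟩
  have hAmonic : ∀ h : K[X], 0 < h.natDegree → (A h).Monic := by
    intro h hh
    have hne : h ≠ 0 := fun e => by simp [e] at hh
    rw [hA, Monic, leadingCoeff_mul, leadingCoeff_C, leadingCoeff_sub_of_degree_lt,
      leadingCoeff_map_of_injective C_injective, ← C_mul,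
      inv_mul_cancel₀ (leadingCoeff_ne_zero.2 hne), C_1]
    rw [degree_map_eq_of_injective C_injective, degree_eq_natDegree hne]
    exact degree_C_le.trans_lt (by exact_mod_cast hh)
  have hAev : ∀ (h : K[X]) (y : S), ((A h).map ι).eval y =
      algebraMap K S h.leadingCoeff⁻¹ * (aeval y h - aeval c.x₀ h) := by
    intro h y
    simp only [hA, Polynomial.map_mul, Polynomial.map_sub, map_C, eval_mul, eval_sub, eval_C,
      map_map, hι]
    congr 1
    · simp
    · congr 1
      · rw [eval_map, aeval_def]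
        congr 1
        ext a
        simp
  -- common roots are exactly the orbit
  have hroots : ∀ P : S[X], P ≠ 0 → P ∣ (A h₁).map ι → P ∣ (A h₂).map ι →
      P.natDegree ≤ (c.orbit l).card := by
    intro P hP hP₁ hP₂
    have heq : ∀ {G h : K[X]}, f = G.comp h → 0 < h.natDegree → (A h).map ι =
        ∏ y ∈ c.orbit G.natDegree, (X - C y) := by
      intro G h hG hh
      have hm : f.natDegree = G.natDegree * h.natDegree := by rw [hG, natDegree_comp]
      have hG0 : 0 < G.natDegree := Nat.pos_of_ne_zero fun e => by rw [e, zero_mul] at hm; omega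
      have hcard : (c.orbit G.natDegree).card = h.natDegree := by
        rw [c.card_orbit (Dvd.intro _ hm.symm), hm, Nat.mul_div_cancel_left _ hG0]
      have hdegA : ((A h).map ι).natDegree = h.natDegree := by
        rw [(hAmonic h hh).natDegree_map, hA, natDegree_C_mul, natDegree_sub_C,
          natDegree_map_eq_of_injective C_injective]
        simp [leadingCoeff_ne_zero.2 (fun e : h = 0 => by simp [e] at hh)]
      have := eq_C_mul_prod (P := (A h).map ι) (s := c.orbit G.natDegree) (by rw [hdegA, hcard])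
        fun y hy => by
          rw [hAev, c.aeval_orbit ((c.component_inv_iff hG hn _).2 dvd_rfl) hy, val,
            Function.iterate_zero_apply, sub_self, mul_zero]
      rwa [hcard, ← hdegA, ((hAmonic h hh).map ι).coeff_natDegree, C_1, one_mul] at this
    rw [heq hf₁ hh₁] at hP₁
    rw [heq hf₂ hh₂] at hP₂
    have hs : ∀ s : Finset S, (∏ y ∈ s, (X - C y)).Splits :=
      fun s => Splits.prod fun y _ => Splits.X_sub_C y
    have h0 : ∀ s : Finset S, (∏ y ∈ s, (X - C y)) ≠ 0 :=
      fun s => (monic_prod_of_monic _ _ fun y _ => monic_X_sub_C y).ne_zero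
    rw [((hs _).of_dvd (h0 _) hP₁).natDegree_eq_card_roots]
    refine Multiset.card_le_card ((Multiset.le_iff_subset ?_).2 fun y hy => ?_)
    · exact Multiset.nodup_of_le ((roots.le_of_dvd (h0 _) hP₁).trans (roots_prod_X_sub_C _).le)
        (c.orbit _).nodup
    · have e₁ := Multiset.mem_of_le (roots.le_of_dvd (h0 _) hP₁) hy
      have e₂ := Multiset.mem_of_le (roots.le_of_dvd (h0 _) hP₂) hy
      rw [roots_prod_X_sub_C, ← Finset.mem_def] at e₁ e₂
      obtain ⟨j, hj, rfl⟩ := Finset.mem_image.1 e₁
      refine c.mem_orbit_of_dvd hln hn (Nat.lcm_dvd (dvd_mul_right _ _) ?_)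
      rw [← c.component_inv_iff hf₂ hn, ← c.val_eq_iff_inv]
      exact c.aeval_orbit ((c.component_inv_iff hf₂ hn _).2 dvd_rfl) e₂
  -- the gcd over the field of fractions, made monic
  set φ := algebraMap K[X] F with hφ
  set g₀ := EuclideanDomain.gcd ((A h₁).map φ) ((A h₂).map φ) with hg₀
  obtain ⟨D, hD⟩ := IsIntegrallyClosed.eq_map_mul_C_of_dvd F (hAmonic h₁ hh₁)
    (EuclideanDomain.gcd_dvd_left _ _ : g₀ ∣ (A h₁).map φ)
  have hg0 : g₀ ≠ 0 := fun e => ((hAmonic h₁ hh₁).map φ).ne_zero
    (zero_dvd_iff.1 (e ▸ EuclideanDomain.gcd_dvd_left ((A h₁).map φ) ((A h₂).map φ)))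
  have hDmon : D.Monic := by
    refine monic_of_injective (IsFractionRing.injective K[X] F) ?_
    have := congrArg leadingCoeff hD
    rw [leadingCoeff_mul, leadingCoeff_C] at this
    exact (mul_eq_right₀ (leadingCoeff_ne_zero.2 hg0)).1 this
  have hDdvd : ∀ {h}, g₀ ∣ (A h).map φ → D ∣ A h := fun {h} e =>
    (map_dvd_map φ (IsFractionRing.injective K[X] F) hDmon).1 ((Dvd.intro _ hD).trans e)
  have hD₁ := hDdvd (EuclideanDomain.gcd_dvd_left ((A h₁).map φ) ((A h₂).map φ))
  have hD₂ := hDdvd (EuclideanDomain.gcd_dvd_right ((A h₁).map φ) ((A h₂).map φ))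
  have hcard : (c.orbit l).card = f.natDegree / l := c.card_orbit hln
  have hDroot : ∀ y ∈ c.orbit l, (D.map ι).eval y = 0 := by
    intro y hy
    have hz : ∀ {h}, c.Inv h l → ((A h).map ι).eval y = 0 := fun {h} hh => by
      rw [hAev, c.aeval_orbit hh hy, val, Function.iterate_zero_apply, sub_self, mul_zero]
    have e : (g₀.map κ).eval y = 0 := by
      have hc : κ.comp φ = ι := RingHom.ext fun p => IsFractionRing.lift_algebraMap c.inj p
      rw [hg₀, EuclideanDomain.gcd_eq_gcd_ab, Polynomial.map_add, Polynomial.map_mul,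
        Polynomial.map_mul, map_map, map_map, hc, eval_add, eval_mul, eval_mul, hz hi₁, hz hi₂,
        zero_mul, zero_mul, add_zero]
    have hc : κ.comp φ = ι := RingHom.ext fun p => IsFractionRing.lift_algebraMap c.inj p
    rw [hg₀, ← hD, Polynomial.map_mul, map_map, hc, map_C, eval_mul, eval_C, mul_eq_zero] at e
    exact e.resolve_right ((map_ne_zero_iff κ κ.injective).2 (leadingCoeff_ne_zero.2 hg0))
  have hDdeg : (D.map ι).natDegree ≤ (c.orbit l).card :=
    hroots _ (hDmon.map ι).ne_zero (Polynomial.map_dvd ι hD₁) (Polynomial.map_dvd ι hD₂)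
  have hDprod : D.map ι = ∏ y ∈ c.orbit l, (X - C y) := by
    have hge : (c.orbit l).card ≤ (D.map ι).natDegree := by
      by_contra hlt
      exact (hDmon.map ι).ne_zero (eq_zero_of_natDegree_lt_card_of_eval_eq_zero' _ _ hDroot
        (Nat.not_le.1 hlt))
    have := eq_C_mul_prod hDdeg hDroot
    rwa [le_antisymm hge hDdeg, (hDmon.map ι).coeff_natDegree, C_1, one_mul] at this
  -- degree in the other variable
  have hswapA : ∀ h : K[X], Bivariate.swap (A h) = -A h := by
    intro h
    simp only [hA, map_mul, map_sub, Bivariate.swap_map_C, Bivariate.swap_C, map_C]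
    ring
  have hswap : ∀ {h}, 0 < h.natDegree → D ∣ A h →
      (Bivariate.swap D).map ι ∣ (A h).map ι ∧ IsUnit (Bivariate.swap D).leadingCoeff := by
    intro h hh hd
    have e : Bivariate.swap D ∣ A h := by
      have := map_dvd Bivariate.swap hd
      rw [hswapA] at this
      exact neg_neg (A h) ▸ this.neg_right
    refine ⟨Polynomial.map_dvd ι e, ?_⟩
    obtain ⟨E, hE⟩ := e
    have := congrArg leadingCoeff hE
    rw [leadingCoeff_mul, (hAmonic h hh).leadingCoeff] at this
    exact IsUnit.of_mul_eq_one _ this.symm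
  have hsdeg : (Bivariate.swap D).natDegree ≤ f.natDegree / l := by
    obtain ⟨e₁, hu⟩ := hswap hh₁ hD₁
    have hne : ι (Bivariate.swap D).leadingCoeff ≠ 0 := (hu.map ι).ne_zero
    rw [← natDegree_map_of_leadingCoeff_ne_zero ι hne, ← hcard]
    refine hroots _ (fun e => hne ?_) e₁ (hswap hh₂ hD₂).1
    have := natDegree_map_of_leadingCoeff_ne_zero ι hne
    rw [leadingCoeff, ← coeff_map, e, coeff_zero]
  have hbdeg : ∀ i, (D.coeff i).natDegree ≤ f.natDegree / l := by
    intro i
    rw [natDegree_le_iff_coeff_eq_zero]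
    intro j hj
    have hcs : ∀ Q : K[X][X], ((Bivariate.swap Q).coeff j).coeff i = (Q.coeff i).coeff j := by
      intro Q
      induction Q using Polynomial.induction_on' with
      | add p q hp hq => simp only [map_add, coeff_add, hp, hq]
      | monomial a p =>
        induction p using Polynomial.induction_on' with
        | add p q hp hq =>
          simp only [map_add, coeff_add, hp, hq]
        | monomial b r =>
          rw [Bivariate.swap_monomial_monomial]
          simp only [coeff_monomial]
          split_ifs <;> simp_all [coeff_monomial]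
    rw [← hcs, coeff_eq_zero_of_natDegree_lt (hsdeg.trans_lt hj), coeff_zero]
  have hbinv : ∀ i, c.Inv (D.coeff i) l := by
    intro i
    rw [← c.val_eq_iff_inv, c.val_eq _ l]
    have himg : (c.orbit l).image c.τ^[l] = c.orbit l := by
      refine Finset.eq_of_subset_of_card_le (fun y hy => ?_) (le_of_eq ?_)
      · obtain ⟨z, hz, rfl⟩ := Finset.mem_image.1 hy
        obtain ⟨t, ht, rfl⟩ := c.mem_orbit hz
        rw [← Function.iterate_add_apply]
        exact c.mem_orbit_of_dvd hln hn (dvd_add dvd_rfl ht)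
      · exact (Finset.card_image_of_injective _ (c.τ.toRingHom.injective.iterate l)).symm
    have hτ : ⇑(c.τ ^ l : S →ₐ[K] S) = c.τ^[l] := AlgHom.coe_pow c.τ l
    have h1 : (D.map ι).map (c.τ ^ l : S →ₐ[K] S).toRingHom = D.map ι := by
      rw [hDprod, Polynomial.map_prod]
      conv_rhs => rw [← himg, Finset.prod_image
        (show Function.Injective c.τ^[l] from c.τ.toRingHom.injective.iterate l).injOn]
      refine Finset.prod_congr rfl fun y _ => ?_
      rw [Polynomial.map_sub, map_X, map_C]
      exact congrArg (fun z => X - C z) (congrFun hτ y)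
    have h2 := congrArg (fun P => Polynomial.coeff P i) h1
    simp only [coeff_map] at h2
    rw [← hτ]
    exact h2
  have hlpos : 0 < f.natDegree / l :=
    Nat.div_pos (Nat.le_of_dvd hn hln) (Nat.pos_of_dvd_of_pos hln hn)
  obtain ⟨i, hi⟩ : ∃ i, (D.coeff i).natDegree ≠ 0 := by
    by_contra hall
    push Not at hall
    obtain ⟨p, hp⟩ : ∃ p : K[X], D = p.map C :=
      ⟨∑ i ∈ Finset.range (D.natDegree + 1), C ((D.coeff i).coeff 0) * X ^ i, by
        rw [Polynomial.map_sum]
        conv_lhs => rw [D.as_sum_range_C_mul_X_pow]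
        exact Finset.sum_congr rfl fun i _ => by
          rw [Polynomial.map_mul, map_C, Polynomial.map_pow, map_X,
            ← eq_C_of_natDegree_eq_zero (hall i)]⟩
    have hx : c.x₀ ∈ c.orbit l := c.mem_orbit_of_dvd hln hn (dvd_zero l)
    have h0 := hDroot _ hx
    rw [hp, map_map, eval_map] at h0
    have h1 : aeval c.x₀ p = 0 := by
      rw [aeval_def, ← h0]
      congr 1
      ext a
      simp [hι]
    rw [c.inj (h1.trans (map_zero _).symm), Polynomial.map_zero] at hp
    exact hDmon.ne_zero hp
  have hdeg : (D.coeff i).natDegree = f.natDegree / l :=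
    le_antisymm (hbdeg i) (not_lt.1 fun hlt => hi (c.natDegree_eq_zero_of_inv hln (hbinv i) hlt))
  obtain ⟨a₁, ha₁⟩ := c.exists_comp_of_inv hn hln (hbinv i) hdeg hi₁
  obtain ⟨a₂, ha₂⟩ := c.exists_comp_of_inv hn hln (hbinv i) hdeg hi₂
  exact ⟨_, a₁, a₂, by rw [hdeg, Nat.div_mul_cancel hln], ha₁, ha₂⟩

/-- The least common right multiple. -/
theorem exists_lcm_component :
    ∃ w b₁ b₂ G : K[X], w.natDegree * Nat.gcd G₁.natDegree G₂.natDegree = f.natDegree ∧
      w = b₁.comp h₁ ∧ w = b₂.comp h₂ ∧ f = G.comp w := by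
  classical
  set a := Nat.gcd G₁.natDegree G₂.natDegree with ha
  obtain ⟨lam, hlam⟩ := LinearMap.exists_leftInverse_of_injective
    (Algebra.linearMap K S) (LinearMap.ker_eq_bot.2 (algebraMap K S).injective)
  let Λ : S[X] →ₗ[K] K[X] := Polynomial.lsum fun i => (monomial i).comp lam
  have hΛm : ∀ i (z : S), Λ (monomial i z) = monomial i (lam z) := fun i z => by
    simp [Λ]
  have hΛC : ∀ (z : S) (p : K[X]), Λ (C z * p.map (algebraMap K S)) = C (lam z) * p := by
    intro z p
    induction p using Polynomial.induction_on' with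
    | add p q hp hq => rw [Polynomial.map_add, mul_add, map_add, hp, hq, mul_add]
    | monomial i r =>
      rw [map_monomial, C_mul_monomial, hΛm, C_mul_monomial, ← Algebra.commutes,
        ← Algebra.smul_def, map_smul, smul_eq_mul, mul_comm]
  have hΛcoeff : ∀ (P : S[X]) (i : ℕ), (Λ P).coeff i = lam (P.coeff i) := by
    intro P i
    induction P using Polynomial.induction_on' with
    | add p q hp hq => rw [map_add, coeff_add, hp, hq, coeff_add, map_add]
    | monomial j z =>
      rw [hΛm, coeff_monomial, coeff_monomial]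
      split_ifs <;> simp
  set W := ∏ y ∈ c.orbit a, (X - C y) with hW
  have han : ∀ {G h : K[X]}, f = G.comp h → G.natDegree ∣ f.natDegree := fun {G h} e =>
    Dvd.intro _ (by rw [e, natDegree_comp] : G.natDegree * h.natDegree = f.natDegree)
  have ha' : a ∣ f.natDegree := (Nat.gcd_dvd_left _ _).trans (han hf₁)
  have key : ∀ {G h : K[X]}, f = G.comp h → a ∣ G.natDegree →
      ∃ b : K[X], Λ W = b.comp h := by
    intro G h hG haG
    have hm : f.natDegree = G.natDegree * h.natDegree := by rw [hG, natDegree_comp]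
    have hG0 : 0 < G.natDegree := Nat.pos_of_ne_zero fun e => by rw [e, zero_mul] at hm; omega
    have hh : 0 < h.natDegree := Nat.pos_of_ne_zero fun e => by rw [e, mul_zero] at hm; omega
    obtain ⟨e, he⟩ := haG
    have ha0 : 0 < a := Nat.pos_of_ne_zero fun e0 => by rw [e0, zero_mul] at he; omega
    set P₁ := ∏ z ∈ (c.orbit a).image (fun y => aeval y h), (X - C z) with hP₁
    set Q := P₁.comp (h.map (algebraMap K S)) with hQ
    have hcardim : ((c.orbit a).image fun y => aeval y h).card ≤ e := by
      calc ((c.orbit a).image fun y => aeval y h).card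
          ≤ ((Finset.range e).image fun j => c.val h (a * j)).card := by
            refine Finset.card_le_card fun z hz => ?_
            obtain ⟨y, hy, rfl⟩ := Finset.mem_image.1 hz
            obtain ⟨j, -, rfl⟩ := Finset.mem_image.1 hy
            refine Finset.mem_image.2 ⟨j % e, Finset.mem_range.2 (Nat.mod_lt _ ?_), ?_⟩
            · exact Nat.pos_of_ne_zero fun e0 => by rw [e0, mul_zero] at he; omega
            · show c.val h (a * (j % e)) = c.val h (a * j)
              have hi := (c.component_inv_iff hG hn (G.natDegree * (j / e))).2 (dvd_mul_right _ _)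
              conv_rhs => rw [← Nat.mod_add_div j e, Nat.mul_add, ← mul_assoc, ← he, c.val_eq,
                Function.iterate_add_apply, hi.eq, ← c.val_eq]
        _ ≤ e := Finset.card_image_le.trans (Finset.card_range e).le
    have hP₁deg : P₁.natDegree = ((c.orbit a).image fun y => aeval y h).card := by
      rw [hP₁, natDegree_prod_of_monic _ _ fun y _ => monic_X_sub_C y]
      simp
    have hQdeg : Q.natDegree ≤ (c.orbit a).card := by
      rw [c.card_orbit ha', hQ, natDegree_comp, natDegree_map, hP₁deg, hm, he, mul_assoc,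
        Nat.mul_div_cancel_left _ ha0]
      exact Nat.mul_le_mul_right _ hcardim
    have hQroot : ∀ y ∈ c.orbit a, Q.eval y = 0 := fun y hy => by
      rw [hQ, eval_comp, hP₁, eval_prod]
      refine Finset.prod_eq_zero (Finset.mem_image_of_mem _ hy) ?_
      simp [eval_map_algebraMap]
    have hQW : Q = C (Q.coeff (c.orbit a).card) * W := eq_C_mul_prod hQdeg hQroot
    have hQ0 : Q ≠ 0 := by
      intro e0
      rcases comp_eq_zero_iff.1 e0 with h1 | ⟨-, h1⟩
      · exact (monic_prod_of_monic _ _ fun y _ => monic_X_sub_C y).ne_zero h1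
      · have := congrArg natDegree h1
        rw [natDegree_map, natDegree_C] at this
        omega
    have hu : Q.coeff (c.orbit a).card ≠ 0 := fun e0 => hQ0 (by rw [hQW, e0, C_0, zero_mul])
    have hWQ : W = C (Q.coeff (c.orbit a).card)⁻¹ * Q := by
      conv_rhs => arg 2; rw [hQW]
      rw [← mul_assoc, ← C_mul, inv_mul_cancel₀ hu, C_1, one_mul]
    generalize Q.coeff (c.orbit a).card = u at hWQ
    refine ⟨∑ i ∈ Finset.range (P₁.natDegree + 1), C (lam (u⁻¹ * P₁.coeff i)) * X ^ i, ?_⟩
    conv_lhs => rw [hWQ, hQ, P₁.as_sum_range_C_mul_X_pow, sum_comp, Finset.mul_sum, map_sum]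
    rw [sum_comp]
    refine Finset.sum_congr rfl fun i _ => ?_
    rw [mul_comp, C_comp, X_pow_comp, mul_comp, C_comp, X_pow_comp, ← Polynomial.map_pow,
      ← mul_assoc, ← C_mul, hΛC]
  obtain ⟨b₁, hb₁⟩ := key hf₁ (Nat.gcd_dvd_left _ _)
  obtain ⟨b₂, hb₂⟩ := key hf₂ (Nat.gcd_dvd_right _ _)
  have hWdeg : W.natDegree = f.natDegree / a := by
    rw [hW, natDegree_prod_of_monic _ _ fun y _ => monic_X_sub_C y, ← c.card_orbit ha']
    simp
  have hwdeg : (Λ W).natDegree = f.natDegree / a := by
    refine natDegree_eq_of_le_of_coeff_ne_zero (natDegree_le_iff_coeff_eq_zero.2 fun i hi => ?_) ?_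
    · rw [hΛcoeff, coeff_eq_zero_of_natDegree_lt (hWdeg.trans_lt hi), map_zero]
    · have h1 : lam 1 = 1 := by
        have := LinearMap.congr_fun hlam 1
        simpa using this
      rw [hΛcoeff, ← hWdeg, (monic_prod_of_monic _ _ fun y _ => monic_X_sub_C y).coeff_natDegree,
        h1]
      exact one_ne_zero
  have hinv : c.Inv (Λ W) a := by
    have e₁ : c.Inv (Λ W) G₁.natDegree :=
      hb₁ ▸ c.inv_comp ((c.component_inv_iff hf₁ hn _).2 dvd_rfl)
    have e₂ : c.Inv (Λ W) G₂.natDegree :=
      hb₂ ▸ c.inv_comp ((c.component_inv_iff hf₂ hn _).2 dvd_rfl)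
    exact Function.IsPeriodicPt.gcd e₁ e₂
  obtain ⟨G, hG⟩ := c.exists_comp_of_inv hn ha' hinv hwdeg (c.inv_f.trans_dvd (one_dvd a))
  exact ⟨_, b₁, b₂, G, by rw [hwdeg, Nat.div_mul_cancel ha'], hb₁, hb₂, hG⟩

end Engstrom

end FullCycle

end Fermat.Agent.RittDecomposition
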