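import Fermat.Agent.RittDecomposition.Series
import Mathlib.Data.Multiset.Basic
import Mathlib.Algebra.BigOperators.Group.Multiset.Basic

/-!
# Engstrom's theorem and Ritt's first theorem
-/

set_option autoImplicit false

noncomputable section

open Polynomial

namespace Fermat.Agent.RittDecomposition

variable {K : Type*} [Field K]

/-- A polynomial of degree at least two which is not a composite of two such. -/
def Indecomposable (f : K[X]) : Prop :=
  2 ≤ f.natDegree ∧ ∀ g h : K[X], f = g.comp h → g.natDegree = 1 ∨ h.natDegree = 1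

/-- The degree multisets of complete decompositions. -/
inductive Decomp : K[X] → Multiset ℕ → Prop
  | linear {f : K[X]} : f.natDegree = 1 → Decomp f 0
  | cons {g h : K[X]} {M : Multiset ℕ} :
      Decomp g M → Indecomposable h → Decomp (g.comp h) (h.natDegree ::ₘ M)

theorem comp_cancel {p q u : K[X]} (hu : 0 < u.natDegree) (h : p.comp u = q.comp u) : p = q := by
  have h0 : (p - q).comp u = 0 := by rw [sub_comp, h, sub_self]
  rcases comp_eq_zero_iff.1 h0 with h1 | ⟨-, h1⟩
  · exact sub_eq_zero.1 h1
  · rw [h1, natDegree_C] at hu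
    omega

theorem exists_linear_inverse {a : K[X]} (ha : a.natDegree = 1) :
    ∃ b : K[X], b.natDegree = 1 ∧ a.comp b = X ∧ b.comp a = X := by
  obtain ⟨u, hu, v, rfl⟩ := natDegree_eq_one.1 ha
  refine ⟨C u⁻¹ * (X - C v), ?_, ?_, ?_⟩
  · rw [natDegree_C_mul (inv_ne_zero hu), natDegree_X_sub_C]
  · simp [← mul_assoc, ← C_mul, hu]
  · simp [← mul_assoc, ← C_mul, hu]

theorem Indecomposable.comp_linear {h a : K[X]} (hh : Indecomposable h) (ha : a.natDegree = 1) :
    Indecomposable (h.comp a) := by
  obtain ⟨b, hb, hab, -⟩ := exists_linear_inverse ha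
  refine ⟨by rw [natDegree_comp, ha, mul_one]; exact hh.1, fun p q e => ?_⟩
  have := hh.2 p (q.comp b) (by rw [← comp_assoc, ← e, comp_assoc, hab, comp_X])
  rwa [natDegree_comp, hb, mul_one] at this

theorem Decomp.comp_linear {f a : K[X]} {M : Multiset ℕ} (h : Decomp f M) (ha : a.natDegree = 1) :
    Decomp (f.comp a) M := by
  cases h with
  | linear h1 => exact .linear (by rw [natDegree_comp, h1, ha])
  | @cons g h N hg hh =>
    rw [comp_assoc, show h.natDegree = (h.comp a).natDegree by rw [natDegree_comp, ha, mul_one]]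
    exact .cons hg (hh.comp_linear ha)

theorem Decomp.natDegree_eq {f : K[X]} {M : Multiset ℕ} (h : Decomp f M) :
    f.natDegree = M.prod := by
  induction h with
  | linear h1 => rw [h1, Multiset.prod_zero]
  | cons _ _ ih => rw [natDegree_comp, ih, Multiset.prod_cons, mul_comm]

theorem Decomp.natDegree_pos {f : K[X]} {M : Multiset ℕ} (h : Decomp f M) :
    0 < f.natDegree := by
  induction h with
  | linear h1 => omega
  | cons _ hh ih =>
    rw [natDegree_comp]
    exact Nat.mul_pos ih (by have := hh.1; omega)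

theorem exists_decomp {f : K[X]} (hf : 0 < f.natDegree) : ∃ M, Decomp f M := by
  induction hd : f.natDegree using Nat.strong_induction_on generalizing f with
  | _ d ih =>
    rcases eq_or_lt_of_le (show 1 ≤ f.natDegree from hf) with h1 | h1
    · exact ⟨0, .linear h1.symm⟩
    · classical
      have hex : ∃ r, 2 ≤ r ∧ ∃ g h : K[X], f = g.comp h ∧ h.natDegree = r :=
        ⟨_, h1, X, f, X_comp.symm, rfl⟩
      obtain ⟨hr, g, h, e, hdh⟩ := Nat.find_spec hex
      have hdeg : f.natDegree = g.natDegree * h.natDegree := by rw [e, natDegree_comp]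
      have hind : Indecomposable h := by
        refine ⟨hdh ▸ hr, fun p q epq => ?_⟩
        have hpq : h.natDegree = p.natDegree * q.natDegree := by rw [epq, natDegree_comp]
        by_contra hno
        push Not at hno
        have hp : p.natDegree ≠ 0 := fun e0 => by rw [e0, zero_mul] at hpq; omega
        have hq : q.natDegree ≠ 0 := fun e0 => by rw [e0, mul_zero] at hpq; omega
        have hlt : q.natDegree < Nat.find hex := by
          rw [← hdh, hpq]
          exact lt_mul_left (by omega) (by omega)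
        exact Nat.find_min hex hlt
          ⟨by omega, g.comp p, q, by rw [e, epq, comp_assoc], rfl⟩
      have hg : 0 < g.natDegree := Nat.pos_of_ne_zero fun e0 => by rw [e0, zero_mul] at hdeg; omega
      have hlt : g.natDegree < d := by
        rw [← hd, hdeg]
        exact lt_mul_right hg (by omega)
      obtain ⟨M, hM⟩ := ih _ hlt hg rfl
      exact ⟨_, e ▸ Decomp.cons hM hind⟩

variable [CharZero K]

/-- **Engstrom**: right components of degrees `r₁`, `r₂` have a common right component of degree
`gcd r₁ r₂`. -/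
theorem engstrom_gcd {f G₁ h₁ G₂ h₂ : K[X]} (hn : 0 < f.natDegree) (hf₁ : f = G₁.comp h₁)
    (hf₂ : f = G₂.comp h₂) :
    ∃ u a₁ a₂ : K[X], u.natDegree = Nat.gcd h₁.natDegree h₂.natDegree ∧
      h₁ = a₁.comp u ∧ h₂ = a₂.comp u := by
  obtain ⟨c⟩ := exists_fullCycle f hn
  obtain ⟨u, a₁, a₂, hu, e₁, e₂⟩ := c.exists_gcd_component hf₁ hf₂ hn
  refine ⟨u, a₁, a₂, ?_, e₁, e₂⟩
  have hm₁ : G₁.natDegree * h₁.natDegree = f.natDegree := by rw [hf₁, natDegree_comp]
  have hm₂ : G₂.natDegree * h₂.natDegree = f.natDegree := by rw [hf₂, natDegree_comp]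
  set l := Nat.lcm G₁.natDegree G₂.natDegree
  refine Nat.dvd_antisymm (Nat.dvd_gcd ⟨a₁.natDegree, ?_⟩ ⟨a₂.natDegree, ?_⟩) ?_
  · rw [e₁, natDegree_comp, mul_comm]
  · rw [e₂, natDegree_comp, mul_comm]
  · refine Nat.dvd_of_mul_dvd_mul_right (Nat.pos_of_ne_zero fun e => ?_ : 0 < l) (hu ▸ ?_)
    · rw [e, mul_zero] at hu; omega
    · obtain ⟨p, hp⟩ : Nat.gcd h₁.natDegree h₂.natDegree ∣ h₁.natDegree := Nat.gcd_dvd_left _ _
      obtain ⟨q, hq⟩ : Nat.gcd h₁.natDegree h₂.natDegree ∣ h₂.natDegree := Nat.gcd_dvd_right _ _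
      set g := Nat.gcd h₁.natDegree h₂.natDegree
      have hg : g ∣ f.natDegree := ⟨G₁.natDegree * p, by rw [← hm₁, hp]; ring⟩
      obtain ⟨t, ht⟩ := hg
      have hg0 : 0 < g := Nat.pos_of_ne_zero fun e => by rw [e, zero_mul] at ht; omega
      rw [ht]
      refine Nat.mul_dvd_mul_left g (Nat.lcm_dvd ⟨p, ?_⟩ ⟨q, ?_⟩)
      · exact Nat.eq_of_mul_eq_mul_left hg0 (by rw [← ht, ← hm₁, hp]; ring)
      · exact Nat.eq_of_mul_eq_mul_left hg0 (by rw [← ht, ← hm₂, hq]; ring)

/-- **Engstrom**: right components have a common multiple of degree `lcm r₁ r₂` which is again a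
right component. -/
theorem engstrom_lcm {f G₁ h₁ G₂ h₂ : K[X]} (hn : 0 < f.natDegree) (hf₁ : f = G₁.comp h₁)
    (hf₂ : f = G₂.comp h₂) :
    ∃ w b₁ b₂ G : K[X], w.natDegree = Nat.lcm h₁.natDegree h₂.natDegree ∧
      w = b₁.comp h₁ ∧ w = b₂.comp h₂ ∧ f = G.comp w := by
  obtain ⟨c⟩ := exists_fullCycle f hn
  obtain ⟨w, b₁, b₂, G, hw, e₁, e₂, e⟩ := c.exists_lcm_component hf₁ hf₂ hn
  refine ⟨w, b₁, b₂, G, ?_, e₁, e₂, e⟩
  have hm₁ : G₁.natDegree * h₁.natDegree = f.natDegree := by rw [hf₁, natDegree_comp]
  have hm₂ : G₂.natDegree * h₂.natDegree = f.natDegree := by rw [hf₂, natDegree_comp]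
  set a := Nat.gcd G₁.natDegree G₂.natDegree
  refine Nat.dvd_antisymm ?_ (Nat.lcm_dvd ⟨b₁.natDegree, ?_⟩ ⟨b₂.natDegree, ?_⟩)
  · have key : f.natDegree ∣ a * Nat.lcm h₁.natDegree h₂.natDegree := by
      rw [← Nat.gcd_mul_right]
      refine Nat.dvd_gcd ?_ ?_
      · rw [← hm₁]; exact Nat.mul_dvd_mul_left _ (Nat.dvd_lcm_left _ _)
      · rw [← hm₂]; exact Nat.mul_dvd_mul_left _ (Nat.dvd_lcm_right _ _)
    rw [← hw, mul_comm] at key
    exact Nat.dvd_of_mul_dvd_mul_left (Nat.pos_of_ne_zero fun e => by rw [e, mul_zero] at hw; omega)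
      key
  · rw [e₁, natDegree_comp, mul_comm]
  · rw [e₂, natDegree_comp, mul_comm]

/-- If right components have coprime degrees, the cofactor above the first is indecomposable when
the second is. -/
theorem indecomposable_cofactor {w A B h₁ h₂ : K[X]} (hw₁ : w = A.comp h₁) (hw₂ : w = B.comp h₂)
    (hn : 0 < w.natDegree) (hA : A.natDegree = h₂.natDegree)
    (hco : Nat.Coprime h₁.natDegree h₂.natDegree) (hh₂ : Indecomposable h₂) :
    Indecomposable A := by
  refine ⟨hA ▸ hh₂.1, fun p q e => ?_⟩
  have hpq : A.natDegree = p.natDegree * q.natDegree := by rw [e, natDegree_comp]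
  obtain ⟨u, a₁, a₂, hu, -, e₂⟩ := engstrom_gcd hn
    (show w = p.comp (q.comp h₁) by rw [hw₁, e, comp_assoc]) hw₂
  rw [natDegree_comp, Nat.Coprime.gcd_mul_right_cancel _ hco,
    Nat.gcd_eq_left (hA ▸ hpq ▸ dvd_mul_left _ _)] at hu
  rcases hh₂.2 a₂ u e₂ with h | h
  · have : u.natDegree = h₂.natDegree := by rw [e₂, natDegree_comp, h, one_mul]
    left
    have hq : 0 < q.natDegree := by
      have := hh₂.1
      omega
    refine Nat.eq_of_mul_eq_mul_right hq ?_
    rw [← hpq, one_mul, hA, ← this, hu]
  · exact Or.inr (hu ▸ h)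

omit [CharZero K] in
theorem Decomp.cases_eq {f : K[X]} {M : Multiset ℕ} (h : Decomp f M) :
    (f.natDegree = 1 ∧ M = 0) ∨ ∃ (g u : K[X]) (N : Multiset ℕ),
      f = g.comp u ∧ Decomp g N ∧ Indecomposable u ∧ M = u.natDegree ::ₘ N := by
  cases h with
  | linear h1 => exact Or.inl ⟨h1, rfl⟩
  | @cons g u N hg hu => exact Or.inr ⟨g, u, N, rfl, hg, hu, rfl⟩

/-- **Ritt's first theorem**: the degree multiset of a complete decomposition is unique. -/
theorem decomp_unique {f : K[X]} {M M' : Multiset ℕ} (h : Decomp f M) (h' : Decomp f M') :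
    M = M' := by
  induction hd : f.natDegree using Nat.strong_induction_on generalizing f M M' with
  | _ d ih =>
    have hlin : ∀ {g u : K[X]}, Indecomposable u → f = g.comp u → f.natDegree ≠ 1 := by
      intro g u hu e h1
      rw [e, natDegree_comp] at h1
      have := Nat.eq_one_of_mul_eq_one_left h1
      have := hu.1
      omega
    rcases h.cases_eq with ⟨h1, rfl⟩ | ⟨g₁, u, M₁, e₁, hg₁, hu, rfl⟩ <;>
      rcases h'.cases_eq with ⟨h1', rfl⟩ | ⟨g₂, v, M₂, e₂, hg₂, hv, rfl⟩
    · rfl
    · exact absurd h1 (hlin hv e₂)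
    · exact absurd h1' (hlin hu e₁)
    · have hu2 := hu.1
      have hv2 := hv.1
      have hd₁ : f.natDegree = g₁.natDegree * u.natDegree := by rw [e₁, natDegree_comp]
      have hd₂ : f.natDegree = g₂.natDegree * v.natDegree := by rw [e₂, natDegree_comp]
      have hg₁0 : 0 < g₁.natDegree := hg₁.natDegree_pos
      have hn : 0 < f.natDegree := by rw [hd₁]; exact Nat.mul_pos hg₁0 (by omega)
      have hlt₁ : g₁.natDegree < d := by
        rw [← hd, hd₁]; exact lt_mul_right hg₁0 (by omega)
      have hg₂0 : 0 < g₂.natDegree := hg₂.natDegree_pos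
      have hlt₂ : g₂.natDegree < d := by
        rw [← hd, hd₂]; exact lt_mul_right hg₂0 (by omega)
      obtain ⟨q, a₁, a₂, hq, ha₁, ha₂⟩ := engstrom_gcd hn e₁ e₂
      rcases hu.2 a₁ q ha₁ with h1 | h1
      · -- the two last components differ by a linear polynomial
        have hqu : q.natDegree = u.natDegree := by rw [ha₁, natDegree_comp, h1, one_mul]
        have h2 : a₂.natDegree = 1 := (hv.2 a₂ q ha₂).resolve_right (by omega)
        have hqv : q.natDegree = v.natDegree := by rw [ha₂, natDegree_comp, h2, one_mul]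
        obtain ⟨b, hb, -, hba⟩ := exists_linear_inverse h1
        have hvu : v = (a₂.comp b).comp u := by
          conv_rhs => rw [ha₁, comp_assoc, ← comp_assoc b, hba, X_comp]
          exact ha₂
        have hcomp : g₁ = g₂.comp (a₂.comp b) :=
          comp_cancel (u := u) (by omega) (by rw [comp_assoc, ← hvu, ← e₁, e₂])
        have := ih _ hlt₁ hg₁
          (hcomp ▸ hg₂.comp_linear (by rw [natDegree_comp, h2, hb] : (a₂.comp b).natDegree = 1)) rfl
        rw [← hqu, hqv, this]
      · -- coprime degrees: the two components commute up to cofactors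
        have hco : Nat.Coprime u.natDegree v.natDegree := hq.symm.trans h1
        obtain ⟨w, A, B, G, hw, hA, hB, hG⟩ := engstrom_lcm hn e₁ e₂
        rw [hco.lcm_eq_mul] at hw
        have hAd : A.natDegree = v.natDegree := by
          refine Nat.eq_of_mul_eq_mul_right (by omega : 0 < u.natDegree) ?_
          rw [← natDegree_comp, ← hA, hw, mul_comm]
        have hBd : B.natDegree = u.natDegree := by
          refine Nat.eq_of_mul_eq_mul_right (by omega : 0 < v.natDegree) ?_
          rw [← natDegree_comp, ← hB, hw]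
        have hwpos : 0 < w.natDegree := by rw [hw]; exact Nat.mul_pos (by omega) (by omega)
        have hAi := indecomposable_cofactor hA hB hwpos hAd hco hv
        have hBi := indecomposable_cofactor hB hA hwpos hBd hco.symm hu
        have hG0 : 0 < G.natDegree := by
          refine Nat.pos_of_ne_zero fun e0 => ?_
          rw [hG, natDegree_comp, e0, zero_mul] at hn
          omega
        obtain ⟨N, hN⟩ := exists_decomp hG0
        have h₁ : g₁ = G.comp A :=
          comp_cancel (u := u) (by omega) (by rw [comp_assoc, ← hA, ← hG, ← e₁])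
        have h₂ : g₂ = G.comp B :=
          comp_cancel (u := v) (by omega) (by rw [comp_assoc, ← hB, ← hG, ← e₂])
        rw [ih _ hlt₁ hg₁ (h₁ ▸ hN.cons hAi) rfl, ih _ hlt₂ hg₂ (h₂ ▸ hN.cons hBi) rfl, hAd, hBd]
        exact Multiset.cons_swap _ _ _

/-- The composite of a list, the first member outermost. -/
def compList (l : List K[X]) : K[X] := l.foldr (fun a b => a.comp b) X

omit [CharZero K] in
theorem Decomp.comp_list : ∀ (l : List K[X]) {g : K[X]} {M : Multiset ℕ}, Decomp g M →
    (∀ a ∈ l, Indecomposable a) →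
    Decomp (g.comp (compList l)) ((l.map natDegree : List ℕ) + M) := by
  intro l
  induction l with
  | nil => intro g M h _; simpa [compList] using h
  | cons a l ih =>
    intro g M h hl
    have h1 := ih (h.cons (hl a (List.mem_cons_self ..))) fun b hb =>
      hl b (List.mem_cons_of_mem _ hb)
    have e : compList (a :: l) = a.comp (compList l) := rfl
    rw [e, ← comp_assoc]
    simpa [← Multiset.cons_coe, Multiset.add_cons] using h1

omit [CharZero K] in
theorem decomp_compList (l : List K[X]) (hl : ∀ a ∈ l, Indecomposable a) :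
    Decomp (compList l) (l.map natDegree : List ℕ) := by
  simpa using Decomp.comp_list l (.linear (natDegree_X : (X : K[X]).natDegree = 1)) hl

omit [CharZero K] in
theorem Indecomposable.linear_comp {h a : K[X]} (hh : Indecomposable h) (ha : a.natDegree = 1) :
    Indecomposable (a.comp h) := by
  obtain ⟨b, hb, -, hba⟩ := exists_linear_inverse ha
  refine ⟨by rw [natDegree_comp, ha, one_mul]; exact hh.1, fun p q e => ?_⟩
  have := hh.2 (b.comp p) q (by rw [comp_assoc, ← e, ← comp_assoc, hba, X_comp])
  rwa [natDegree_comp, hb, one_mul] at this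

omit [CharZero K] in
theorem compList_append (l : List K[X]) (a : K[X]) :
    compList (l ++ [a]) = (compList l).comp a := by
  induction l with
  | nil => simp [compList]
  | cons b l ih =>
    show b.comp (compList (l ++ [a])) = (b.comp (compList l)).comp a
    rw [ih, comp_assoc]

omit [CharZero K] in
theorem exists_compList {f : K[X]} (hf : 2 ≤ f.natDegree) :
    ∃ l : List K[X], (∀ a ∈ l, Indecomposable a) ∧ compList l = f := by
  obtain ⟨M, h⟩ := exists_decomp (f := f) (by omega)
  induction h with
  | linear h1 => omega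
  | @cons g u N hg hu ih =>
    rcases eq_or_lt_of_le (show 1 ≤ g.natDegree from hg.natDegree_pos) with h1 | h1
    · exact ⟨[g.comp u], by simpa using hu.linear_comp h1.symm, by simp [compList]⟩
    · obtain ⟨l, hl, rfl⟩ := ih h1
      refine ⟨l ++ [u], ?_, compList_append l u⟩
      intro a ha
      rcases List.mem_append.1 ha with ha | ha
      · exact hl a ha
      · rwa [List.mem_singleton.1 ha]

end Fermat.Agent.RittDecomposition
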